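/-
FF3/Ord7/OrdLine.lean — Mathlib-only leaf (L3b) for the S33 long shot.

Local-ring form of the "ordinary line from the R_ord relation" argument:
over a local ring `T`, a rank-2 free module `V` with an action `ρ : G →* End_T V`,
subgroups `I ≤ D` with `I` normalised by `D`, a function `ε : G → T`, and the relation
`(ρ s' - ε s') (ρ s - 1) = 0` for `s s' ∈ I`; if some `s₀ ∈ I` has `ε s₀ - 1` a unit and
`det ρ s₀ = ε s₀`, then `V` has a `D`-stable rank-one direct summand line `L` spanned by
the first vector of a basis, with `I` acting trivially on `V / L`.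
-/
import Mathlib

set_option autoImplicit false

namespace Fermat.Agent.FF3.Ord7

open LinearMap

section Basis

variable {T : Type*} [CommRing T]
  {V : Type*} [AddCommGroup V] [Module T V]

/-- Two complementary rank-one free submodules give a basis whose first vector spans the
first submodule. -/
theorem exists_basis_of_isCompl_rank_one {L M : Submodule T V} (h : IsCompl L M)
    (bL : Module.Basis (Fin 1) T L) (bM : Module.Basis (Fin 1) T M) :
    ∃ b : Module.Basis (Fin 2) T V, L = T ∙ b 0 := by
  classical
  let b : Module.Basis (Fin 2) T V :=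
    ((bL.prod bM).map (Submodule.prodEquivOfIsCompl L M h)).reindex finSumFinEquiv
  have hb0 : b 0 = (bL 0 : V) := by
    have h0 : (finSumFinEquiv (m := 1) (n := 1)).symm 0 = Sum.inl 0 := by
      rw [Equiv.symm_apply_eq]; rfl
    simp [b, Module.Basis.reindex_apply, h0]
  refine ⟨b, ?_⟩
  rw [hb0]
  apply le_antisymm
  · intro x hx
    have hx' := bL.mem_span (⟨x, hx⟩ : L)
    have hr : Set.range bL = {bL 0} := by
      ext y
      constructor
      · rintro ⟨i, rfl⟩
        rw [Subsingleton.elim i 0]; rfl
      · rintro rfl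
        exact ⟨0, rfl⟩
    rw [hr, Submodule.mem_span_singleton] at hx'
    obtain ⟨c, hc⟩ := hx'
    rw [Submodule.mem_span_singleton]
    refine ⟨c, ?_⟩
    have := congrArg (Subtype.val) hc
    simpa using this
  · rw [Submodule.span_singleton_le_iff_mem]
    exact (bL 0).2

end Basis

section Idem

variable {T : Type*} [CommRing T]
  {V : Type*} [AddCommGroup V] [Module T V]

/-- If `(a - 1)^2 = u • (a - 1)` with `u` a unit, then `u⁻¹ • (a - 1)` is idempotent. -/
theorem isIdempotentElem_of_sq {a : Module.End T V} {u : Tˣ}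
    (h : (a - 1) * (a - 1) = (u : T) • (a - 1)) :
    IsIdempotentElem (((u⁻¹ : Tˣ) : T) • (a - 1)) := by
  unfold IsIdempotentElem
  rw [smul_mul_smul_comm, h, smul_smul, mul_assoc, Units.inv_mul, mul_one]

theorem range_unit_smul (f : Module.End T V) (u : Tˣ) :
    LinearMap.range ((u : T) • f) = LinearMap.range f := by
  apply le_antisymm
  · rintro _ ⟨x, rfl⟩
    exact ⟨(u : T) • x, by simp⟩
  · rintro _ ⟨x, rfl⟩
    exact ⟨((u⁻¹ : Tˣ) : T) • x, by simp [smul_smul]⟩

end Idem

section Main

variable {T : Type*} [CommRing T] [IsLocalRing T]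
  {V : Type*} [AddCommGroup V] [Module T V] [Module.Free T V] [Module.Finite T V]

/-- For an idempotent endomorphism `e` of a finite free module over a local ring,
`range e` and `ker e` are finite free. -/
theorem free_range_ker_of_idem {e : Module.End T V} (he : IsIdempotentElem e) :
    (Module.Free T (LinearMap.range e) ∧ Module.Finite T (LinearMap.range e)) ∧
    (Module.Free T (LinearMap.ker e) ∧ Module.Finite T (LinearMap.ker e)) := by
  have he' : ∀ x, e (e x) = e x := fun x => by
    have := congrArg (fun f : Module.End T V => f x) he.eq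
    simpa using this
  -- the two retractions
  let s₁ : V →ₗ[T] LinearMap.range e := e.rangeRestrict
  let s₂ : V →ₗ[T] LinearMap.ker e :=
    (1 - e).codRestrict (LinearMap.ker e) (fun x => by
      simp [LinearMap.mem_ker, he' x])
  have h₁ : s₁.comp (LinearMap.range e).subtype = LinearMap.id := by
    ext ⟨x, y, rfl⟩
    simp [s₁, he' y]
  have h₂ : s₂.comp (LinearMap.ker e).subtype = LinearMap.id := by
    ext ⟨x, hx⟩
    have hx' : e x = 0 := hx
    simp [s₂, hx']
  have p₁ : Module.Projective T (LinearMap.range e) := Module.Projective.of_split _ _ h₁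
  have p₂ : Module.Projective T (LinearMap.ker e) := Module.Projective.of_split _ _ h₂
  have f₁ : Module.Finite T (LinearMap.range e) :=
    Module.Finite.of_surjective s₁ (fun y => ⟨(y : V), by
      have := congrArg (fun f => f y) h₁
      simpa using this⟩)
  have f₂ : Module.Finite T (LinearMap.ker e) :=
    Module.Finite.of_surjective s₂ (fun y => ⟨(y : V), by
      have := congrArg (fun f => f y) h₂
      simpa using this⟩)
  exact ⟨⟨Module.free_of_flat_of_isLocalRing, f₁⟩, ⟨Module.free_of_flat_of_isLocalRing, f₂⟩⟩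

variable {G : Type*} [Group G]

/-- **Ordinary line from the `R_ord` relation (local-ring form).**  The conclusion is literally
the body of the Prelude predicate `GaloisRepAdic.IsOrdinaryAt` (for one prime `P`), with
`D`/`I` in the roles of the decomposition/inertia subgroups. -/
theorem exists_ordinary_line (hV : Module.finrank T V = 2)
    (ρ : G →* Module.End T V) (D I : Subgroup G)
    (hnorm : ∀ τ ∈ D, ∀ σ ∈ I, τ * σ * τ⁻¹ ∈ I)
    (ε : G → T)
    (hrord : ∀ s ∈ I, ∀ s' ∈ I, (ρ s' - ε s' • 1) * (ρ s - 1) = 0)
    (s₀ : G) (hs₀ : s₀ ∈ I) (hu : IsUnit (ε s₀ - 1))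
    (hdet : LinearMap.det (ρ s₀) = ε s₀) :
    ∃ L : Submodule T V, (∃ b : Module.Basis (Fin 2) T V, L = T ∙ b 0) ∧
      (∀ σ ∈ D, ∀ v ∈ L, ρ σ v ∈ L) ∧ (∀ σ ∈ I, ∀ v : V, ρ σ v - v ∈ L) := by
  classical
  obtain ⟨u, hu⟩ := hu
  set a : Module.End T V := ρ s₀ with ha
  -- `a` is invertible
  have hainv : a * ρ s₀⁻¹ = 1 := by
    rw [ha, ← map_mul, mul_inv_cancel, map_one]
  have hdetunit : IsUnit (LinearMap.det a) := by
    have h1 : LinearMap.det a * LinearMap.det (ρ s₀⁻¹) = 1 := by
      rw [← map_mul, hainv, map_one]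
    exact IsUnit.of_mul_eq_one _ h1
  have hε : ε s₀ = (u : T) + 1 := by rw [hu]; ring
  have hsq : (a - 1) * (a - 1) = (u : T) • (a - 1) := by
    have h := hrord s₀ hs₀ s₀ hs₀
    have h2 : a - ε s₀ • (1 : Module.End T V) = (a - 1) - (u : T) • (1 : Module.End T V) := by
      rw [hε, add_smul, one_smul]; abel
    rw [← ha, h2, sub_mul, smul_mul_assoc, one_mul, sub_eq_zero] at h
    exact h
  set e : Module.End T V := ((u⁻¹ : Tˣ) : T) • (a - 1) with he
  have hidem : IsIdempotentElem e := isIdempotentElem_of_sq hsq
  have hcompl : IsCompl (LinearMap.range e) (LinearMap.ker e) := hidem.isCompl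
  have hrange : LinearMap.range e = LinearMap.range (a - 1) := range_unit_smul _ _
  have hae : a - 1 = (u : T) • e := by
    rw [he, smul_smul, Units.mul_inv, one_smul]
  obtain ⟨⟨fr₁, fi₁⟩, ⟨fr₂, fi₂⟩⟩ := free_range_ker_of_idem hidem
  -- ranks add up to 2
  have hsum : Module.finrank T (LinearMap.range e) + Module.finrank T (LinearMap.ker e) = 2 := by
    rw [← Module.finrank_prod, ← hV]
    exact (Submodule.prodEquivOfIsCompl _ _ hcompl).finrank_eq
  -- `(ρ s - 1) V ≤ range e` for `s ∈ I`
  have hI : ∀ s ∈ I, ∀ v : V, ρ s v - v ∈ LinearMap.range e := by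
    intro s hs v
    have h := hrord s hs s₀ hs₀
    have h' := congrArg (fun f : Module.End T V => f v) h
    simp only [Module.End.mul_apply, LinearMap.sub_apply, LinearMap.smul_apply,
      Module.End.one_apply, LinearMap.zero_apply] at h'
    -- h' : a x - ε s₀ • x = 0 where x = ρ s v - v
    set x := ρ s v - v with hx
    have hax : a x = ε s₀ • x := sub_eq_zero.mp h'
    refine ⟨x, ?_⟩
    rw [he]
    simp only [LinearMap.smul_apply, LinearMap.sub_apply, Module.End.one_apply]
    rw [hax, hε, add_smul, one_smul, add_sub_cancel_right, smul_smul, Units.inv_mul, one_smul]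
  -- D-stability
  have hD : ∀ τ ∈ D, ∀ v ∈ LinearMap.range e, ρ τ v ∈ LinearMap.range e := by
    intro τ hτ v hv
    rw [hrange] at hv
    obtain ⟨w, rfl⟩ := hv
    have hs := hnorm τ hτ s₀ hs₀
    have key : ρ τ ((a - 1) w) = ρ (τ * s₀ * τ⁻¹) (ρ τ w) - ρ τ w := by
      have h1 : ρ (τ * s₀ * τ⁻¹) (ρ τ w) = ρ τ (a w) := by
        rw [← Module.End.mul_apply, ← map_mul, inv_mul_cancel_right, map_mul,
          Module.End.mul_apply]
      rw [h1, LinearMap.sub_apply, Module.End.one_apply, map_sub]
    rw [key]
    exact hI _ hs _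
  refine ⟨LinearMap.range e, ?_, hD, hI⟩
  -- the rank of `range e` is 1
  have hcases : Module.finrank T (LinearMap.range e) = 0 ∨
      Module.finrank T (LinearMap.range e) = 1 ∨ Module.finrank T (LinearMap.range e) = 2 := by
    omega
  rcases hcases with h0 | h1 | h2
  · -- rank 0 : e = 0, a = 1, det = 1 = ε s₀, so u = 0
    exfalso
    have hbot : LinearMap.range e = ⊥ := by
      have := (Module.finrank_eq_zero_iff_of_free (R := T) (M := LinearMap.range e)).mp h0
      exact Submodule.eq_bot_iff _ |>.mpr (fun x hx => by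
        have := Subsingleton.elim (⟨x, hx⟩ : LinearMap.range e) 0
        exact congrArg Subtype.val this)
    have he0 : e = 0 := LinearMap.range_eq_bot.mp hbot
    have ha1 : a = 1 := by
      have : a - 1 = 0 := by rw [hae, he0, smul_zero]
      exact sub_eq_zero.mp this
    have : (u : T) = 0 := by
      rw [hu, ← hdet, ha1, map_one, sub_self]
    exact u.ne_zero this
  · -- rank 1
    have h1' : Module.finrank T (LinearMap.ker e) = 1 := by omega
    exact exists_basis_of_isCompl_rank_one hcompl
      (Module.finBasisOfFinrankEq T _ h1) (Module.finBasisOfFinrankEq T _ h1')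
  · -- rank 2 : ker e = 0, e = 1, a = ε s₀ • 1, det a = ε s₀ ^ 2
    exfalso
    have h0 : Module.finrank T (LinearMap.ker e) = 0 := by omega
    have hbot : LinearMap.ker e = ⊥ := by
      have := (Module.finrank_eq_zero_iff_of_free (R := T) (M := LinearMap.ker e)).mp h0
      exact Submodule.eq_bot_iff _ |>.mpr (fun x hx => by
        have := Subsingleton.elim (⟨x, hx⟩ : LinearMap.ker e) 0
        exact congrArg Subtype.val this)
    have he1 : e = 1 := by
      ext v
      have hmem : e v - v ∈ LinearMap.ker e := by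
        rw [LinearMap.mem_ker, map_sub]
        have := congrArg (fun f : Module.End T V => f v) hidem.eq
        simp only [Module.End.mul_apply] at this
        rw [this, sub_self]
      rw [hbot, Submodule.mem_bot, sub_eq_zero] at hmem
      simpa using hmem
    have haε : a = ε s₀ • (1 : Module.End T V) := by
      have : a - 1 = (u : T) • (1 : Module.End T V) := by rw [hae, he1]
      rw [hε, add_smul, one_smul, ← this]; abel
    have hdet2 : ε s₀ = ε s₀ ^ 2 := by
      have := hdet
      rw [haε, LinearMap.det_smul, hV, map_one, mul_one] at this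
      exact this.symm
    have hmul : ε s₀ * (u : T) = 0 := by
      rw [hu]; linear_combination hdet2.symm
    have hε0 : ε s₀ = 0 := by
      have := congrArg (fun t => t * ((u⁻¹ : Tˣ) : T)) hmul
      simpa [mul_assoc] using this
    rw [hdet, hε0] at hdetunit
    exact not_isUnit_zero hdetunit

end Main

section Normal

variable {G : Type*} [Group G]

/-- The image in `G` of a normal subgroup `N` of a subgroup `D ≤ G` is normalised by `D`
(the shape of the hypothesis `hnorm` of `exists_ordinary_line`; applies to the inertia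
subgroup inside the decomposition subgroup). -/
theorem subgroup_map_subtype_conj_mem (D : Subgroup G) (N : Subgroup D) (hN : N.Normal) :
    ∀ τ ∈ D, ∀ σ ∈ N.map D.subtype, τ * σ * τ⁻¹ ∈ N.map D.subtype := by
  rintro τ hτ _ ⟨σ, hσ, rfl⟩
  exact ⟨⟨τ, hτ⟩ * σ * ⟨τ, hτ⟩⁻¹, hN.conj_mem σ hσ _, by simp⟩

end Normal

end Fermat.Agent.FF3.Ord7
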